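import Mathlib

set_option autoImplicit false

/-!
Regular sequence `X 0, ..., X (r-1), C ϖ` in a multivariate power series ring over a DVR.
-/

namespace Fermat.Agent.S57Lib

open MvPowerSeries

/-- Power series all of whose coefficients at monomials not involving the first `i`
variables vanish. -/
noncomputable def lowIdeal (𝒪 : Type) [CommRing 𝒪] (r i : ℕ) : Ideal (MvPowerSeries (Fin r) 𝒪) where
  carrier := {f | ∀ m : Fin r →₀ ℕ, (∀ j : Fin r, j.val < i → m j = 0) → coeff m f = 0}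
  add_mem' := by
    intro f g hf hg m hm
    rw [map_add, hf m hm, hg m hm, add_zero]
  zero_mem' := by
    intro m _
    simp
  smul_mem' := by
    classical
    intro c f hf m hm
    rw [smul_eq_mul, coeff_mul]
    refine Finset.sum_eq_zero ?_
    rintro ⟨a, b⟩ hab
    have hab := Finset.HasAntidiagonal.mem_antidiagonal.mp hab
    have hb : ∀ j : Fin r, j.val < i → b j = 0 := by
      intro j hj
      have h1 := hm j hj
      have h2 : a j + b j = m j := by
        rw [← Finsupp.add_apply]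
        exact congrArg (fun t : Fin r →₀ ℕ => t j) hab
      omega
    rw [hf b hb, mul_zero]

theorem mem_lowIdeal {𝒪 : Type} [CommRing 𝒪] {r i : ℕ} {f : MvPowerSeries (Fin r) 𝒪} :
    f ∈ lowIdeal 𝒪 r i ↔
      ∀ m : Fin r →₀ ℕ, (∀ j : Fin r, j.val < i → m j = 0) → coeff m f = 0 :=
  Iff.rfl

/-- The ideal generated by the first `i` variables. -/
noncomputable def spanLow (𝒪 : Type) [CommRing 𝒪] (r i : ℕ) : Ideal (MvPowerSeries (Fin r) 𝒪) :=
  Ideal.span {f | ∃ j : Fin r, j.val < i ∧ X j = f}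

theorem spanLow_mono {𝒪 : Type} [CommRing 𝒪] {r i k : ℕ} (h : i ≤ k) :
    spanLow 𝒪 r i ≤ spanLow 𝒪 r k := by
  apply Ideal.span_mono
  rintro f ⟨j, hj, rfl⟩
  exact ⟨j, lt_of_lt_of_le hj h, rfl⟩

theorem spanLow_le_lowIdeal {𝒪 : Type} [CommRing 𝒪] {r i : ℕ} :
    spanLow 𝒪 r i ≤ lowIdeal 𝒪 r i := by
  classical
  apply Ideal.span_le.mpr
  rintro f ⟨j, hj, rfl⟩
  intro m hm
  rw [coeff_X, if_neg]
  intro h
  have := hm j hj
  rw [h] at this
  simp at this

theorem lowIdeal_le_spanLow {𝒪 : Type} [CommRing 𝒪] {r : ℕ} (i : ℕ) :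
    lowIdeal 𝒪 r i ≤ spanLow 𝒪 r i := by
  classical
  induction i with
  | zero =>
    intro f hf
    have : f = 0 := by
      ext m
      rw [hf m (fun j hj => absurd hj (Nat.not_lt_zero _))]
      simp
    rw [this]
    exact Submodule.zero_mem _
  | succ i ih =>
    intro f hf
    by_cases hi : i < r
    · let j₀ : Fin r := ⟨i, hi⟩
      let f₀ : MvPowerSeries (Fin r) 𝒪 := fun m => if m j₀ = 0 then coeff m f else 0
      have hf₀ : f₀ ∈ lowIdeal 𝒪 r i := by
        intro m hm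
        show (if m j₀ = 0 then coeff m f else 0) = 0
        split_ifs with h0
        · apply hf m
          intro j hj
          rcases Nat.lt_succ_iff_lt_or_eq.mp hj with h | h
          · exact hm j h
          · have : j = j₀ := Fin.ext h
            rw [this]; exact h0
        · rfl
      have h1 : f₀ ∈ spanLow 𝒪 r (i + 1) := spanLow_mono (Nat.le_succ i) (ih hf₀)
      have h2 : f - f₀ ∈ spanLow 𝒪 r (i + 1) := by
        have hdvd : (X j₀ : MvPowerSeries (Fin r) 𝒪) ∣ f - f₀ := by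
          rw [X_dvd_iff]
          intro m hm
          rw [map_sub]
          show coeff m f - (if m j₀ = 0 then coeff m f else 0) = 0
          rw [if_pos hm, sub_self]
        obtain ⟨g, hg⟩ := hdvd
        rw [hg]
        exact Ideal.mul_mem_right _ _ (Ideal.subset_span ⟨j₀, Nat.lt_succ_self i, rfl⟩)
      have := Ideal.add_mem _ h2 h1
      rwa [sub_add_cancel] at this
    · have hf' : f ∈ lowIdeal 𝒪 r i := by
        intro m hm
        apply hf m
        intro j _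
        exact hm j (lt_of_lt_of_le j.isLt (not_lt.mp hi))
      exact spanLow_mono (Nat.le_succ i) (ih hf')

theorem lowIdeal_eq_spanLow {𝒪 : Type} [CommRing 𝒪] {r : ℕ} (i : ℕ) :
    lowIdeal 𝒪 r i = spanLow 𝒪 r i :=
  le_antisymm (lowIdeal_le_spanLow i) spanLow_le_lowIdeal

/-- The list of variables. -/
noncomputable def seqX (𝒪 : Type) [CommRing 𝒪] (r : ℕ) : List (MvPowerSeries (Fin r) 𝒪) :=
  List.ofFn (fun j : Fin r => (X j : MvPowerSeries (Fin r) 𝒪))

theorem length_seqX {𝒪 : Type} [CommRing 𝒪] {r : ℕ} : (seqX 𝒪 r).length = r := by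
  simp [seqX]

theorem ofList_take_seqX {𝒪 : Type} [CommRing 𝒪] {r : ℕ} (i : ℕ) :
    Ideal.ofList ((seqX 𝒪 r).take i) = lowIdeal 𝒪 r i := by
  rw [lowIdeal_eq_spanLow]
  unfold Ideal.ofList spanLow
  congr 1
  ext f
  simp only [Set.mem_ofPred_eq, List.mem_take_iff_getElem, seqX, List.length_ofFn, List.getElem_ofFn]
  constructor
  · rintro ⟨k, hk, rfl⟩
    exact ⟨⟨k, (lt_min_iff.mp hk).2⟩, (lt_min_iff.mp hk).1, rfl⟩
  · rintro ⟨j, hj, rfl⟩
    exact ⟨j.val, lt_min_iff.mpr ⟨hj, j.isLt⟩, rfl⟩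

theorem ofList_seqX {𝒪 : Type} [CommRing 𝒪] {r : ℕ} :
    Ideal.ofList (seqX 𝒪 r) = lowIdeal 𝒪 r r := by
  rw [← ofList_take_seqX r]
  congr 1
  rw [List.take_of_length_le]
  rw [length_seqX]

theorem mem_lowIdeal_top {𝒪 : Type} [CommRing 𝒪] {r : ℕ} {f : MvPowerSeries (Fin r) 𝒪} :
    f ∈ lowIdeal 𝒪 r r ↔ constantCoeff f = 0 := by
  constructor
  · intro h
    rw [← coeff_zero_eq_constantCoeff_apply]
    exact h 0 (fun _ _ => rfl)
  · intro h m hm
    have : m = 0 := by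
      ext j
      exact hm j j.isLt
    rw [this, coeff_zero_eq_constantCoeff_apply, h]

theorem sub_C_constantCoeff_mem {𝒪 : Type} [CommRing 𝒪] {r : ℕ} (f : MvPowerSeries (Fin r) 𝒪) :
    f - C (constantCoeff f) ∈ Ideal.ofList (seqX 𝒪 r) := by
  rw [ofList_seqX, mem_lowIdeal_top]
  simp

open MvPowerSeries RingTheory.Sequence IsLocalRing

theorem ideal_smul_top_self {A : Type} [CommRing A] (I : Ideal A) :
    (I • (⊤ : Submodule A A)) = I := by
  simp

theorem getElem_seqX {𝒪 : Type} [CommRing 𝒪] {r : ℕ} (i : ℕ) (hi : i < (seqX 𝒪 r).length) :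
    (seqX 𝒪 r)[i] = X (⟨i, by simpa [seqX] using hi⟩ : Fin r) := by
  simp [seqX]

theorem isWeaklyRegular_seqX {𝒪 : Type} [CommRing 𝒪] {r : ℕ} :
    IsWeaklyRegular (MvPowerSeries (Fin r) 𝒪) (seqX 𝒪 r) := by
  classical
  rw [isWeaklyRegular_iff]
  intro i hi
  rw [isSMulRegular_quotient_iff_mem_of_smul_mem]
  intro f hf
  rw [ideal_smul_top_self, ofList_take_seqX] at hf ⊢
  rw [getElem_seqX i hi, smul_eq_mul] at hf
  have hi' : i < r := by simpa [seqX] using hi
  intro m hm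
  have h1 := hf (m + Finsupp.single ⟨i, hi'⟩ 1) (by
    intro j hj
    rw [Finsupp.add_apply, hm j hj, Finsupp.single_apply, if_neg, add_zero]
    intro h
    rw [← h] at hj
    exact lt_irrefl _ hj)
  rw [mul_comm, X_def, coeff_add_mul_monomial, mul_one] at h1
  exact h1

/-- The full sequence `X 0, ..., X (r-1), C ϖ`. -/
noncomputable def seqFull (𝒪 : Type) [CommRing 𝒪] (r : ℕ) (ϖ : 𝒪) :
    List (MvPowerSeries (Fin r) 𝒪) :=
  seqX 𝒪 r ++ [C ϖ]

theorem length_seqFull {𝒪 : Type} [CommRing 𝒪] {r : ℕ} (ϖ : 𝒪) :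
    (seqFull 𝒪 r ϖ).length = r + 1 := by
  simp [seqFull, length_seqX]

theorem isWeaklyRegular_seqFull {𝒪 : Type} [CommRing 𝒪] [IsDomain 𝒪] {r : ℕ} {ϖ : 𝒪}
    (hϖ : ϖ ≠ 0) :
    IsWeaklyRegular (MvPowerSeries (Fin r) 𝒪) (seqFull 𝒪 r ϖ) := by
  unfold seqFull
  rw [isWeaklyRegular_append_iff]
  refine ⟨isWeaklyRegular_seqX, ?_⟩
  rw [isWeaklyRegular_singleton_iff, isSMulRegular_quotient_iff_mem_of_smul_mem]
  intro f hf
  rw [ideal_smul_top_self, ofList_seqX, mem_lowIdeal_top] at hf ⊢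
  rw [smul_eq_mul, map_mul, constantCoeff_C] at hf
  exact (mul_eq_zero.mp hf).resolve_left hϖ

theorem ofList_seqFull {𝒪 : Type} [CommRing 𝒪] {r : ℕ} (ϖ : 𝒪) :
    Ideal.ofList (seqFull 𝒪 r ϖ) = Ideal.ofList (seqX 𝒪 r) ⊔ Ideal.span {C ϖ} := by
  unfold seqFull
  rw [Ideal.ofList_append, Ideal.ofList_singleton]

theorem ofList_seqFull_eq_maximalIdeal {𝒪 : Type} [CommRing 𝒪] [IsDomain 𝒪]
    [IsDiscreteValuationRing 𝒪] {r : ℕ} {ϖ : 𝒪} (hϖ : Irreducible ϖ) :
    Ideal.ofList (seqFull 𝒪 r ϖ) = maximalIdeal (MvPowerSeries (Fin r) 𝒪) := by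
  apply le_antisymm
  · rw [ofList_seqFull]
    refine sup_le ?_ ?_
    · intro f hf
      rw [ofList_seqX, mem_lowIdeal_top] at hf
      rw [mem_maximalIdeal, mem_nonunits_iff, isUnit_iff_constantCoeff, hf]
      exact not_isUnit_zero
    · rw [Ideal.span_le, Set.singleton_subset_iff]
      show C ϖ ∈ maximalIdeal _
      rw [mem_maximalIdeal, mem_nonunits_iff, isUnit_iff_constantCoeff, constantCoeff_C]
      exact hϖ.not_isUnit
  · intro f hf
    rw [mem_maximalIdeal, mem_nonunits_iff, isUnit_iff_constantCoeff] at hf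
    have h1 : constantCoeff f ∈ maximalIdeal 𝒪 := hf
    rw [hϖ.maximalIdeal_eq, Ideal.mem_span_singleton] at h1
    obtain ⟨c, hc⟩ := h1
    rw [ofList_seqFull]
    have h2 : f = (f - C (constantCoeff f)) + C ϖ * C c := by
      rw [← map_mul, ← hc]; ring
    rw [h2]
    refine Ideal.add_mem _ (Ideal.mem_sup_left (sub_C_constantCoeff_mem f)) (Ideal.mem_sup_right ?_)
    exact Ideal.mul_mem_right _ _ (Ideal.subset_span rfl)

theorem isRegular_seqFull {𝒪 : Type} [CommRing 𝒪] [IsDomain 𝒪]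
    [IsDiscreteValuationRing 𝒪] {r : ℕ} {ϖ : 𝒪} (hϖ : Irreducible ϖ) :
    RingTheory.Sequence.IsRegular (MvPowerSeries (Fin r) 𝒪) (seqFull 𝒪 r ϖ) := by
  refine ⟨isWeaklyRegular_seqFull hϖ.ne_zero, ?_⟩
  rw [ideal_smul_top_self, ofList_seqFull_eq_maximalIdeal hϖ]
  exact (Ideal.IsMaximal.ne_top inferInstance).symm

end Fermat.Agent.S57Lib
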