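import Mathlib
import Fermat.Agent.S57Lib.PowerSeries

set_option autoImplicit false

/-!
A module over `A = 𝒪⟦X₁,…,X_r⟧` (with `𝒪` a DVR) that is finite free over `A` through an
`𝒪`-algebra endomorphism `φ` of `A` is free over `A`.
-/

namespace Fermat.Agent.S57Lib

open CategoryTheory IsLocalRing MvPowerSeries RingTheory.Sequence

theorem hasProjectiveDimensionLT_of_isFiniteLength {A : Type} [CommRing A] [IsLocalRing A] (n : ℕ)
    (hk : HasProjectiveDimensionLT (ModuleCat.of A (A ⧸ maximalIdeal A)) n)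
    (Q : Type) [AddCommGroup Q] [Module A Q] (h : IsFiniteLength A Q) :
    HasProjectiveDimensionLT (ModuleCat.of A Q) n := by
  induction h with
  | of_subsingleton =>
    rename_i M _ _ _
    have h0 : HasProjectiveDimensionLT (ModuleCat.of A M) 0 :=
      (ModuleCat.isZero_of_subsingleton _).hasProjectiveDimensionLT_zero
    exact hasProjectiveDimensionLT_of_ge _ 0 n (Nat.zero_le _)
  | of_simple_quotient hN ih =>
    rename_i M _ _ N' hsimple
    let f := N'.mkQ
    let S := f.shortComplexKer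
    have hS : S.ShortExact := LinearMap.shortExact_shortComplexKer (Submodule.mkQ_surjective N')
    have h1 : HasProjectiveDimensionLT S.X₁ n :=
      hasProjectiveDimensionLT_of_iso
        ((LinearEquiv.ofEq _ _ (Submodule.ker_mkQ N').symm).toModuleIso) n
    have h3 : HasProjectiveDimensionLT S.X₃ n := by
      obtain ⟨I, hI, ⟨e⟩⟩ := isSimpleModule_iff_quot_maximal.mp hsimple
      have : I = maximalIdeal A := IsLocalRing.eq_maximalIdeal hI
      subst this
      exact hasProjectiveDimensionLT_of_iso e.symm.toModuleIso n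
    exact hS.hasProjectiveDimensionLT_X₂ n h1 h3

theorem isArtinian_of_finite_of_maximalIdeal_smul {𝒪 : Type} [CommRing 𝒪] [IsLocalRing 𝒪]
    {Q : Type} [AddCommGroup Q] [Module 𝒪 Q] [Module.Finite 𝒪 Q]
    (h : ∀ a ∈ maximalIdeal 𝒪, ∀ q : Q, a • q = 0) : IsArtinian 𝒪 Q := by
  have hT : Module.IsTorsionBySet 𝒪 Q (maximalIdeal 𝒪 : Set 𝒪) := by
    intro q a
    exact h a.1 a.2 q
  let _ := hT.module
  let _ : Field (𝒪 ⧸ maximalIdeal 𝒪) := Ideal.Quotient.field _
  have hss : IsSemisimpleModule (𝒪 ⧸ maximalIdeal 𝒪) Q := inferInstance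
  have hss' : IsSemisimpleModule 𝒪 Q := hT.isSemisimpleModule_iff.mp hss
  infer_instance

section

variable {𝒪 : Type} [CommRing 𝒪] {r : ℕ}
  {N : Type} [AddCommGroup N] [Module (MvPowerSeries (Fin r) 𝒪) N]
  (φ : MvPowerSeries (Fin r) 𝒪 →ₐ[𝒪] MvPowerSeries (Fin r) 𝒪)
  {d : ℕ} (b : Fin d → N)

/-- The `φ`-semilinear map `c ↦ ∑ φ (c i) • b i`. -/
noncomputable def phiHom : (Fin d → MvPowerSeries (Fin r) 𝒪) →+ N where
  toFun c := ∑ i, φ (c i) • b i
  map_zero' := by simp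
  map_add' c c' := by simp [add_smul, Finset.sum_add_distrib]

theorem phiHom_apply (c : Fin d → MvPowerSeries (Fin r) 𝒪) :
    phiHom φ b c = ∑ i, φ (c i) • b i := rfl

theorem phiHom_smul (f : MvPowerSeries (Fin r) 𝒪) (c : Fin d → MvPowerSeries (Fin r) 𝒪) :
    phiHom φ b (f • c) = φ f • phiHom φ b c := by
  simp [phiHom_apply, Finset.smul_sum, mul_smul]

/-- The additive equivalence `A^d ≃ N`. -/
noncomputable def phiEquiv
    (b_span : ∀ x : N, ∃ c : Fin d → MvPowerSeries (Fin r) 𝒪, x = ∑ i, φ (c i) • b i)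
    (b_rel : ∀ c : Fin d → MvPowerSeries (Fin r) 𝒪, ∑ i, φ (c i) • b i = 0 ↔ ∀ i, c i = 0) :
    (Fin d → MvPowerSeries (Fin r) 𝒪) ≃+ N :=
  AddEquiv.ofBijective (phiHom φ b)
    ⟨(injective_iff_map_eq_zero _).mpr fun c hc => funext ((b_rel c).mp hc),
      fun x => by
        obtain ⟨c, hc⟩ := b_span x
        exact ⟨c, hc.symm⟩⟩

theorem phiEquiv_apply
    (b_span : ∀ x : N, ∃ c : Fin d → MvPowerSeries (Fin r) 𝒪, x = ∑ i, φ (c i) • b i)
    (b_rel : ∀ c : Fin d → MvPowerSeries (Fin r) 𝒪, ∑ i, φ (c i) • b i = 0 ↔ ∀ i, c i = 0)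
    (c : Fin d → MvPowerSeries (Fin r) 𝒪) :
    phiEquiv φ b b_span b_rel c = ∑ i, φ (c i) • b i := rfl

theorem phiEquiv_smul
    (b_span : ∀ x : N, ∃ c : Fin d → MvPowerSeries (Fin r) 𝒪, x = ∑ i, φ (c i) • b i)
    (b_rel : ∀ c : Fin d → MvPowerSeries (Fin r) 𝒪, ∑ i, φ (c i) • b i = 0 ↔ ∀ i, c i = 0)
    (f : MvPowerSeries (Fin r) 𝒪) (c : Fin d → MvPowerSeries (Fin r) 𝒪) :
    phiEquiv φ b b_span b_rel (f • c) = φ f • phiEquiv φ b b_span b_rel c :=
  phiHom_smul φ b f c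

end

section

variable {𝒪 : Type} [CommRing 𝒪] [IsDomain 𝒪] [IsDiscreteValuationRing 𝒪] {r : ℕ}
  {N : Type} [AddCommGroup N] [Module (MvPowerSeries (Fin r) 𝒪) N]
  (φ : MvPowerSeries (Fin r) 𝒪 →ₐ[𝒪] MvPowerSeries (Fin r) 𝒪)
  {d : ℕ} (b : Fin d → N)

theorem isArtinian_quot {ϖ : 𝒪} (hϖ : Irreducible ϖ) [Module 𝒪 N]
    [IsScalarTower 𝒪 (MvPowerSeries (Fin r) 𝒪) N]
    (b_span : ∀ x : N, ∃ c : Fin d → MvPowerSeries (Fin r) 𝒪, x = ∑ i, φ (c i) • b i) :
    IsArtinian (MvPowerSeries (Fin r) 𝒪)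
      (N ⧸ (Ideal.ofList ((seqFull 𝒪 r ϖ).map φ) • ⊤ :
        Submodule (MvPowerSeries (Fin r) 𝒪) N)) := by
  set P : Submodule (MvPowerSeries (Fin r) 𝒪) N :=
    (Ideal.ofList ((seqFull 𝒪 r ϖ).map φ) • ⊤ : Submodule (MvPowerSeries (Fin r) 𝒪) N) with hP
  -- elements of the ideal generated by the sequence act through `φ` as zero on the quotient
  have hmap : Ideal.ofList (seqFull 𝒪 r ϖ) ≤ (Ideal.ofList ((seqFull 𝒪 r ϖ).map φ)).comap φ := by
    rw [Ideal.ofList, Ideal.span_le]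
    intro g hg
    exact Ideal.subset_span (List.mem_map_of_mem hg)
  have hzero : ∀ f ∈ Ideal.ofList (seqFull 𝒪 r ϖ), ∀ x : N, φ f • x ∈ P := by
    intro f hf x
    exact Submodule.smul_mem_smul (hmap hf) Submodule.mem_top
  have hC : ∀ (a : 𝒪) (x : N), (C a : MvPowerSeries (Fin r) 𝒪) • x = a • x := by
    intro a x
    rw [← algebraMap_smul (MvPowerSeries (Fin r) 𝒪) a x]
    rfl
  have hφC : ∀ a : 𝒪, φ (C a) = C a := fun a => φ.commutes a
  have key : ∀ (f : MvPowerSeries (Fin r) 𝒪) (x : N),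
      (Submodule.Quotient.mk (φ f • x) : N ⧸ P) =
        constantCoeff f • (Submodule.Quotient.mk x : N ⧸ P) := by
    intro f x
    have h1 : φ (f - C (constantCoeff f)) • x ∈ P :=
      hzero _ (by
        rw [ofList_seqFull]
        exact Ideal.mem_sup_left (sub_C_constantCoeff_mem f)) x
    rw [map_sub, sub_smul, hφC, hC] at h1
    rw [← Submodule.Quotient.mk_smul, ← sub_eq_zero, ← Submodule.Quotient.mk_sub]
    exact (Submodule.Quotient.mk_eq_zero P).mpr h1
  have hfin : Module.Finite 𝒪 (N ⧸ P) := by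
    refine Module.Finite.of_surjective
      (Fintype.linearCombination 𝒪 (fun i => (Submodule.Quotient.mk (b i) : N ⧸ P))) ?_
    intro q
    obtain ⟨x, rfl⟩ := Submodule.Quotient.mk_surjective P q
    obtain ⟨c, hc⟩ := b_span x
    refine ⟨fun i => constantCoeff (c i), ?_⟩
    rw [Fintype.linearCombination_apply, hc, ← Submodule.mkQ_apply, map_sum]
    exact Finset.sum_congr rfl fun i _ => (key (c i) (b i)).symm
  have hkill : ∀ a ∈ maximalIdeal 𝒪, ∀ q : N ⧸ P, a • q = 0 := by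
    intro a ha q
    rw [hϖ.maximalIdeal_eq, Ideal.mem_span_singleton] at ha
    obtain ⟨a', rfl⟩ := ha
    obtain ⟨x, rfl⟩ := Submodule.Quotient.mk_surjective P q
    rw [← Submodule.Quotient.mk_smul, mul_smul, ← hC ϖ, ← hφC]
    refine (Submodule.Quotient.mk_eq_zero P).mpr (hzero _ ?_ _)
    rw [ofList_seqFull]
    exact Ideal.mem_sup_right (Ideal.subset_span rfl)
  have hart : IsArtinian 𝒪 (N ⧸ P) := isArtinian_of_finite_of_maximalIdeal_smul hkill
  exact isArtinian_of_tower 𝒪 hart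

theorem free_of_semilinear_basis [Nontrivial N]
    (b_span : ∀ x : N, ∃ c : Fin d → MvPowerSeries (Fin r) 𝒪, x = ∑ i, φ (c i) • b i)
    (b_rel : ∀ c : Fin d → MvPowerSeries (Fin r) 𝒪, ∑ i, φ (c i) • b i = 0 ↔ ∀ i, c i = 0) :
    Module.Free (MvPowerSeries (Fin r) 𝒪) N := by
  obtain ⟨ϖ, hϖ⟩ := IsDiscreteValuationRing.exists_irreducible 𝒪
  let e := phiEquiv φ b b_span b_rel
  have he : ∀ (f : MvPowerSeries (Fin r) 𝒪) (c : Fin d → MvPowerSeries (Fin r) 𝒪),
      e (f • c) = φ f • e c := phiEquiv_smul φ b b_span b_rel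
  -- the sequence is weakly regular on `A^d`, hence its image is weakly regular on `N`
  have hw0 : IsWeaklyRegular (Fin d → MvPowerSeries (Fin r) 𝒪) (seqFull 𝒪 r ϖ) :=
    ((TensorProduct.rid (MvPowerSeries (Fin r) 𝒪)
      (Fin d → MvPowerSeries (Fin r) 𝒪)).isWeaklyRegular_congr _).mp
      (isWeaklyRegular_seqFull hϖ.ne_zero).isWeaklyRegular_lTensor
  have hw : IsWeaklyRegular N ((seqFull 𝒪 r ϖ).map φ) :=
    (AddEquiv.isWeaklyRegular_congr (e := e)
      (List.forall₂_map_right_iff.mpr <| List.forall₂_same.mpr fun f _ c => he f c)).mp hw0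
  -- `N` is finite over `A`
  have hfin : Module.Finite (MvPowerSeries (Fin r) 𝒪) N := by
    refine Module.Finite.of_surjective
      (Fintype.linearCombination (MvPowerSeries (Fin r) 𝒪) b) ?_
    intro x
    obtain ⟨c, hc⟩ := b_span x
    exact ⟨fun i => φ (c i), by rw [Fintype.linearCombination_apply, hc]⟩
  -- `d ≠ 0`
  obtain ⟨x₀, hx₀⟩ := exists_ne (0 : N)
  have hd : 0 < d := by
    by_contra hd
    have hd0 : d = 0 := by omega
    subst hd0
    obtain ⟨c, hc⟩ := b_span x₀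
    exact hx₀ (by rw [hc]; simp)
  let i₀ : Fin d := ⟨0, hd⟩
  -- the image sequence lies in the maximal ideal
  have hmem : ∀ s ∈ (seqFull 𝒪 r ϖ).map φ, s ∈ maximalIdeal (MvPowerSeries (Fin r) 𝒪) := by
    intro s hs
    obtain ⟨t, ht, rfl⟩ := List.mem_map.mp hs
    have ht' : t ∈ maximalIdeal (MvPowerSeries (Fin r) 𝒪) := by
      rw [← ofList_seqFull_eq_maximalIdeal hϖ]
      exact Ideal.subset_span ht
    rw [mem_maximalIdeal, mem_nonunits_iff] at ht' ⊢
    intro hu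
    apply ht'
    obtain ⟨u, hu⟩ := hu
    obtain ⟨c, hc⟩ := e.surjective ((↑u⁻¹ : MvPowerSeries (Fin r) 𝒪) • b i₀)
    have h1 : e (t • c) = e (Pi.single i₀ 1) := by
      rw [he, hc, ← hu, smul_smul, Units.mul_inv, one_smul]
      show b i₀ = ∑ i, φ ((Pi.single i₀ 1 : Fin d → MvPowerSeries (Fin r) 𝒪) i) • b i
      rw [Finset.sum_eq_single i₀]
      · simp
      · intro j _ hj
        simp [Pi.single_eq_of_ne hj]
      · intro h
        exact absurd (Finset.mem_univ _) h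
    have h2 := congrFun (e.injective h1) i₀
    simp only [Pi.smul_apply, smul_eq_mul, Pi.single_eq_same] at h2
    exact IsUnit.of_mul_eq_one _ h2
  have hpd := ModuleCat.projectiveDimension_quotient_eq_add_length_of_isWeaklyRegular
    (ModuleCat.of (MvPowerSeries (Fin r) 𝒪) N) ((seqFull 𝒪 r ϖ).map φ) hw hmem
  have hk := ModuleCat.projectiveDimension_quotient_eq_length.{0, 0} (seqFull 𝒪 r ϖ)
    (isRegular_seqFull hϖ)
  have hk' : HasProjectiveDimensionLT (ModuleCat.of (MvPowerSeries (Fin r) 𝒪)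
      (MvPowerSeries (Fin r) 𝒪 ⧸ maximalIdeal (MvPowerSeries (Fin r) 𝒪))) (r + 2) := by
    have h1 : HasProjectiveDimensionLE (ModuleCat.of (MvPowerSeries (Fin r) 𝒪)
        (Shrink.{0} (MvPowerSeries (Fin r) 𝒪 ⧸ Ideal.ofList (seqFull 𝒪 r ϖ)))) (r + 1) := by
      rw [← projectiveDimension_le_iff, hk, length_seqFull]
    rw [ofList_seqFull_eq_maximalIdeal hϖ] at h1
    exact hasProjectiveDimensionLT_of_iso
      (Shrink.linearEquiv (MvPowerSeries (Fin r) 𝒪) _).toModuleIso (r + 2)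
  -- the quotient has finite length
  let _ : Module 𝒪 N := Module.compHom N (algebraMap 𝒪 (MvPowerSeries (Fin r) 𝒪))
  have : IsScalarTower 𝒪 (MvPowerSeries (Fin r) 𝒪) N :=
    IsScalarTower.of_algebraMap_smul fun _ _ => rfl
  have hart := isArtinian_quot φ b hϖ b_span
  have hfl : IsFiniteLength (MvPowerSeries (Fin r) 𝒪)
      (N ⧸ (Ideal.ofList ((seqFull 𝒪 r ϖ).map φ) • ⊤ :
        Submodule (MvPowerSeries (Fin r) 𝒪) N)) :=
    isFiniteLength_iff_isNoetherian_isArtinian.mpr ⟨inferInstance, hart⟩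
  have hQ := hasProjectiveDimensionLT_of_isFiniteLength (r + 2) hk' _ hfl
  have hle : projectiveDimension (ModuleCat.of (MvPowerSeries (Fin r) 𝒪)
      (N ⧸ (Ideal.ofList ((seqFull 𝒪 r ϖ).map φ) • ⊤ :
        Submodule (MvPowerSeries (Fin r) 𝒪) N))) ≤ (r + 1 : ℕ) :=
    (projectiveDimension_le_iff _ _).mpr hQ
  rw [hpd, List.length_map, length_seqFull] at hle
  have h0 : projectiveDimension (ModuleCat.of (MvPowerSeries (Fin r) 𝒪) N) ≤ 0 := by
    have h1 : projectiveDimension (ModuleCat.of (MvPowerSeries (Fin r) 𝒪) N) +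
        ((r + 1 : ℕ) : WithBot ℕ∞) ≤ 0 + ((r + 1 : ℕ) : WithBot ℕ∞) := by
      rw [zero_add]; exact hle
    exact ENat.WithBot.add_le_add_natCast_right_iff.mp h1
  have hproj : Projective (ModuleCat.of (MvPowerSeries (Fin r) 𝒪) N) := by
    rw [projective_iff_hasProjectiveDimensionLE_zero, ← projectiveDimension_le_iff]
    exact_mod_cast h0
  have hproj' : Module.Projective (MvPowerSeries (Fin r) 𝒪) N :=
    (IsProjective.iff_projective N).mpr hproj
  exact Module.free_of_flat_of_isLocalRing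

end

end Fermat.Agent.S57Lib
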